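import Fermat.Agent.H89.MW.LpfGeoInterfaces

set_option autoImplicit false

noncomputable section

open Module TensorProduct

namespace Fermat.Agent.H35.MWBar

open Fermat.Agent.H92.MW Fermat.Agent.H89.MW

variable {R : Type} [CommRing R] [Algebra ℚ R] [IsDedekindDomain R]

theorem bar_mono (𝒞 : MWDatum R) : Monotone (WBar 𝒞) := fun _ _ h =>
  Submodule.baseChange_mono QQbar (𝒞.W_mono h)

theorem bar_exhaust (𝒞 : MWDatum R) (a : QQbar ⊗[ℚ] R) : ∃ m : ℕ, a ∈ WBar 𝒞 m := by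
  induction a using TensorProduct.induction_on with
  | zero => exact ⟨0, Submodule.zero_mem _⟩
  | tmul c r =>
    obtain ⟨m, hm⟩ := 𝒞.W_exhaust r
    exact ⟨m, Submodule.tmul_mem_baseChange_of_mem c hm⟩
  | add a b ha hb =>
    obtain ⟨m, hm⟩ := ha
    obtain ⟨m', hm'⟩ := hb
    exact ⟨max m m', Submodule.add_mem _ (bar_mono 𝒞 (le_max_left _ _) hm)
      (bar_mono 𝒞 (le_max_right _ _) hm')⟩

theorem bar_mul_le (𝒞 : MWDatum R) (m m' : ℕ) : WBar 𝒞 m * WBar 𝒞 m' ≤ WBar 𝒞 (m + m') := by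
  rw [WBar, WBar, WBar, Submodule.baseChange_eq_span, Submodule.baseChange_eq_span,
    Submodule.baseChange_eq_span, Submodule.span_mul_span]
  apply Submodule.span_mono
  rintro x ⟨a, ⟨r, hr, rfl⟩, b, ⟨s, hs, rfl⟩, rfl⟩
  refine ⟨r * s, 𝒞.W_mul m m' (Submodule.mul_mem_mul hr hs), ?_⟩
  simp [Algebra.TensorProduct.tmul_mul_tmul]

theorem bar_mul_mem (𝒞 : MWDatum R) (m m' : ℕ) (a b : QQbar ⊗[ℚ] R) (ha : a ∈ WBar 𝒞 m)
    (hb : b ∈ WBar 𝒞 m') : a * b ∈ WBar 𝒞 (m + m') :=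
  bar_mul_le 𝒞 m m' (Submodule.mul_mem_mul ha hb)

theorem one_mem_W_zero (𝒞 : MWDatum R) : (1 : R) ∈ 𝒞.W 0 := by
  rw [𝒞.W_zero]
  exact Submodule.one_le.mp le_rfl

theorem bar_const_mem (𝒞 : MWDatum R) (c : QQbar) :
    algebraMap QQbar (QQbar ⊗[ℚ] R) c ∈ WBar 𝒞 0 := by
  rw [Algebra.TensorProduct.algebraMap_apply]
  exact Submodule.tmul_mem_baseChange_of_mem _ (one_mem_W_zero 𝒞)

theorem bar_eq_const (𝒞 : MWDatum R) (a : QQbar ⊗[ℚ] R) (ha : a ∈ WBar 𝒞 0) :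
    ∃ c : QQbar, a = algebraMap QQbar (QQbar ⊗[ℚ] R) c := by
  rw [WBar, Submodule.baseChange_eq_span] at ha
  induction ha using Submodule.span_induction with
  | mem x hx =>
    obtain ⟨r, hr, rfl⟩ := hx
    have hr' : r ∈ (1 : Submodule ℚ R) := by
      have : r ∈ 𝒞.W 0 := hr
      rwa [𝒞.W_zero] at this
    rw [Submodule.mem_one] at hr'
    obtain ⟨q, rfl⟩ := hr'
    refine ⟨algebraMap ℚ QQbar q, ?_⟩
    rw [Algebra.TensorProduct.algebraMap_apply]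
    simp only [TensorProduct.mk_apply]
    rw [Algebra.algebraMap_eq_smul_one, TensorProduct.tmul_smul, TensorProduct.smul_tmul']
    congr 1
    rw [Algebra.smul_def, mul_one]
    rfl
  | zero => exact ⟨0, by simp⟩
  | add x y _ _ hx hy =>
    obtain ⟨c, rfl⟩ := hx
    obtain ⟨c', rfl⟩ := hy
    exact ⟨c + c', by rw [map_add]⟩
  | smul c x _ hx =>
    obtain ⟨c', rfl⟩ := hx
    exact ⟨c * c', by rw [Algebra.smul_def, map_mul]⟩

/-- the base change equivalence `ℚ̄ ⊗ W m ≃ WBar m` -/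
def barEquiv (𝒞 : MWDatum R) (m : ℕ) : (QQbar ⊗[ℚ] (𝒞.W m)) ≃ₗ[QQbar] WBar 𝒞 m :=
  Submodule.toBaseChange.toLinearEquiv QQbar (𝒞.W m)

theorem barEquiv_tmul (𝒞 : MWDatum R) (m : ℕ) (c : QQbar) (f : 𝒞.W m) :
    ((barEquiv 𝒞 m (c ⊗ₜ[ℚ] f) : WBar 𝒞 m) : QQbar ⊗[ℚ] R) = c ⊗ₜ[ℚ] (f : R) := rfl

theorem bar_finite (𝒞 : MWDatum R) (m : ℕ) : Module.Finite QQbar (WBar 𝒞 m) :=
  Module.Finite.equiv (barEquiv 𝒞 m)

theorem bar_finrank_eq (𝒞 : MWDatum R) (m : ℕ) :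
    finrank QQbar (WBar 𝒞 m) = finrank ℚ (𝒞.W m) := by
  rw [← (barEquiv 𝒞 m).finrank_eq, Module.finrank_baseChange]

theorem bar_span (𝒞 : MWDatum R) (m : ℕ) (f : WBar 𝒞 m) :
    ∃ x : Fin (finrank ℚ (𝒞.W m)) → QQbar,
      f = ∑ j, x j • toWBar 𝒞 m (Module.finBasis ℚ (𝒞.W m) j) := by
  set b := (Module.finBasis ℚ (𝒞.W m)).baseChange QQbar with hb
  set y := (barEquiv 𝒞 m).symm f with hy
  refine ⟨fun j => b.repr y j, ?_⟩
  have h1 : f = barEquiv 𝒞 m y := by rw [hy, LinearEquiv.apply_symm_apply]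
  have h2 : y = ∑ j, b.repr y j • b j := (b.sum_repr y).symm
  rw [h1]
  conv_lhs => rw [h2]
  rw [map_sum]
  refine Finset.sum_congr rfl (fun j _ => ?_)
  rw [map_smul]
  congr 1
  apply Subtype.ext
  rw [hb, Module.Basis.baseChange_apply, barEquiv_tmul, toWBar_coe]

omit [IsDedekindDomain R] in
/-- `1 ⊗ r ∈ W.baseChange` only if `r ∈ W` -/
theorem mem_of_tmul_mem_baseChange (W : Submodule ℚ R) (r : R)
    (h : (1 : QQbar) ⊗ₜ[ℚ] r ∈ W.baseChange QQbar) : r ∈ W := by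
  by_contra hr
  obtain ⟨f, hf, hfW⟩ := Submodule.exists_dual_map_eq_bot_of_notMem hr inferInstance
  -- the `ℚ̄`-linear extension of `f`
  set l : R →ₗ[ℚ] QQbar := (Algebra.linearMap ℚ QQbar).comp f with hl
  set F : QQbar ⊗[ℚ] R →ₗ[QQbar] QQbar := LinearMap.liftBaseChange QQbar l with hF
  have hFW : W.baseChange QQbar ≤ LinearMap.ker F := by
    rw [Submodule.baseChange_eq_span, Submodule.span_le]
    rintro x ⟨w, hw, rfl⟩
    have hfw : f w = 0 := by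
      have : f w ∈ W.map f := ⟨w, hw, rfl⟩
      rw [hfW] at this
      simpa using this
    simp [hF, hl, hfw]
  have h1 : F ((1 : QQbar) ⊗ₜ[ℚ] r) = 0 := hFW h
  have h2 : F ((1 : QQbar) ⊗ₜ[ℚ] r) = algebraMap ℚ QQbar (f r) := by
    simp [hF, hl]
  rw [h2] at h1
  exact hf ((map_eq_zero_iff _ (algebraMap ℚ QQbar).injective).mp h1)

theorem bar_t_mem (𝒞 : MWDatum R) : tBar 𝒞 ∈ WBar 𝒞 𝒞.e :=
  Submodule.tmul_mem_baseChange_of_mem _ 𝒞.t_mem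

theorem bar_t_not_mem (𝒞 : MWDatum R) : tBar 𝒞 ∉ WBar 𝒞 (𝒞.e - 1) := fun h =>
  𝒞.t_not_mem (mem_of_tmul_mem_baseChange _ _ h)

/-- linear algebra: if `U ≤ V` are finite dimensional with `dim V ≤ dim U + 1` and `b ∈ V \ U`,
then every `a ∈ V` is congruent to a multiple of `b` modulo `U`. -/
theorem exists_sub_smul_mem {K E : Type*} [Field K] [AddCommGroup E] [Module K E]
    (U V : Submodule K E) [Module.Finite K V] (hUV : U ≤ V)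
    (hdim : finrank K V ≤ finrank K U + 1) {a b : E} (ha : a ∈ V) (hb : b ∈ V) (hbU : b ∉ U) :
    ∃ c : K, a - c • b ∈ U := by
  have : Module.Finite K U := Module.Finite.of_injective (Submodule.inclusion hUV)
    (Submodule.inclusion_injective hUV)
  set N : Submodule K E := U ⊔ Submodule.span K {b} with hN
  have hNV : N ≤ V := sup_le hUV ((Submodule.span_singleton_le_iff_mem _ _).mpr hb)
  have hb0 : b ≠ 0 := fun h => hbU (h ▸ U.zero_mem)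
  have hinf : U ⊓ Submodule.span K {b} = ⊥ := by
    rw [eq_bot_iff]
    rintro x ⟨hxU, hxb⟩
    obtain ⟨c, rfl⟩ := Submodule.mem_span_singleton.mp hxb
    by_cases hc : c = 0
    · simp [hc]
    · exfalso
      apply hbU
      have := U.smul_mem c⁻¹ hxU
      rwa [smul_smul, inv_mul_cancel₀ hc, one_smul] at this
  have hdimN : finrank K N = finrank K U + 1 := by
    have h1 := Submodule.finrank_sup_add_finrank_inf_eq U (Submodule.span K {b})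
    rw [hinf, finrank_bot, add_zero, finrank_span_singleton hb0] at h1
    exact h1
  have hNeq : N = V := by
    apply Submodule.eq_of_le_of_finrank_le hNV
    rw [hdimN]
    exact hdim
  have haN : a ∈ N := hNeq ▸ ha
  obtain ⟨u, hu, v, hv, huv⟩ := Submodule.mem_sup.mp haN
  obtain ⟨c, rfl⟩ := Submodule.mem_span_singleton.mp hv
  refine ⟨c, ?_⟩
  rw [← huv, add_sub_cancel_right]
  exact hu

theorem bar_step (𝒞 : MWDatum R) (m : ℕ) (a b : QQbar ⊗[ℚ] R) (ha : a ∈ WBar 𝒞 (m + 1))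
    (hb : b ∈ WBar 𝒞 (m + 1)) (hbm : b ∉ WBar 𝒞 m) : ∃ c : QQbar, a - c • b ∈ WBar 𝒞 m := by
  have := bar_finite 𝒞 (m + 1)
  refine exists_sub_smul_mem (WBar 𝒞 m) (WBar 𝒞 (m + 1)) (bar_mono 𝒞 (Nat.le_succ m)) ?_ ha hb hbm
  rw [bar_finrank_eq, bar_finrank_eq]
  exact 𝒞.W_step m

theorem bar_gap (𝒞 : MWDatum R) (m : ℕ) (hm : 𝒞.m₀ ≤ m) :
    ∃ b ∈ WBar 𝒞 (m + 1), b ∉ WBar 𝒞 m := by
  have h1 := 𝒞.W_finrank m hm
  have h2 := 𝒞.W_finrank (m + 1) (hm.trans (Nat.le_succ m))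
  have hlt : finrank ℚ (𝒞.W m) < finrank ℚ (𝒞.W (m + 1)) := by omega
  have hne : 𝒞.W m ≠ 𝒞.W (m + 1) := fun h => by rw [h] at hlt; exact lt_irrefl _ hlt
  have hlt' : 𝒞.W m < 𝒞.W (m + 1) := lt_of_le_of_ne (𝒞.W_mono (Nat.le_succ m)) hne
  obtain ⟨r, hr, hr'⟩ := SetLike.exists_of_lt hlt'
  exact ⟨(1 : QQbar) ⊗ₜ[ℚ] r, Submodule.tmul_mem_baseChange_of_mem _ hr,
    fun h => hr' (mem_of_tmul_mem_baseChange _ _ h)⟩

theorem bar_mem_iff_pole (𝒞 : MWDatum R) (a : QQbar ⊗[ℚ] R) (m : ℕ) :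
    a ∈ WBar 𝒞 m ↔ poleB 𝒞 a ≤ m := by
  constructor
  · intro h
    exact Nat.sInf_le h
  · intro h
    have hne : {m : ℕ | a ∈ WBar 𝒞 m}.Nonempty := bar_exhaust 𝒞 a
    have h1 : a ∈ WBar 𝒞 (poleB 𝒞 a) := Nat.sInf_mem hne
    exact bar_mono 𝒞 h h1

theorem bar_finiteType (𝒞 : MWDatum R) : Algebra.FiniteType QQbar (QQbar ⊗[ℚ] R) := by
  have := 𝒞.finiteType
  infer_instance

theorem poleB_const_smul (𝒞 : MWDatum R) {c : QQbar} (hc : c ≠ 0) (b : QQbar ⊗[ℚ] R) :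
    poleB 𝒞 (algebraMap QQbar (QQbar ⊗[ℚ] R) c * b) = poleB 𝒞 b := by
  have h : ∀ m, algebraMap QQbar (QQbar ⊗[ℚ] R) c * b ∈ WBar 𝒞 m ↔ b ∈ WBar 𝒞 m := by
    intro m
    rw [← Algebra.smul_def]
    constructor
    · intro h
      have := (WBar 𝒞 m).smul_mem c⁻¹ h
      rwa [smul_smul, inv_mul_cancel₀ hc, one_smul] at this
    · intro h
      exact (WBar 𝒞 m).smul_mem c h
  unfold poleB
  congr 1
  ext m
  exact h m

theorem bar_pole_mul (𝒞 : MWDatum R) (a b : QQbar ⊗[ℚ] R) (ha : a ≠ 0) (hb : b ≠ 0) :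
    poleB 𝒞 (a * b) = poleB 𝒞 a + poleB 𝒞 b := by
  have hle : poleB 𝒞 (a * b) ≤ poleB 𝒞 a + poleB 𝒞 b :=
    (bar_mem_iff_pole 𝒞 _ _).mp (bar_mul_mem 𝒞 _ _ a b ((bar_mem_iff_pole 𝒞 _ _).mpr le_rfl)
      ((bar_mem_iff_pole 𝒞 _ _).mpr le_rfl))
  rcases Nat.eq_zero_or_pos (poleB 𝒞 a) with ha0 | hapos
  · obtain ⟨c, rfl⟩ := bar_eq_const 𝒞 a ((bar_mem_iff_pole 𝒞 _ _).mpr ha0.le)
    have hc : c ≠ 0 := fun h => ha (by rw [h, map_zero])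
    rw [poleB_const_smul 𝒞 hc, ha0, zero_add]
  rcases Nat.eq_zero_or_pos (poleB 𝒞 b) with hb0 | hbpos
  · obtain ⟨c, rfl⟩ := bar_eq_const 𝒞 b ((bar_mem_iff_pole 𝒞 _ _).mpr hb0.le)
    have hc : c ≠ 0 := fun h => hb (by rw [h, map_zero])
    rw [mul_comm, poleB_const_smul 𝒞 hc, hb0, add_zero]
  have ha' : a ∉ (𝒞.W (poleB 𝒞 a - 1)).baseChange QQbar := fun h => by
    have := (bar_mem_iff_pole 𝒞 a _).mp h
    omega
  have hb' : b ∉ (𝒞.W (poleB 𝒞 b - 1)).baseChange QQbar := fun h => by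
    have := (bar_mem_iff_pole 𝒞 b _).mp h
    omega
  have hab := 𝒞.bar_val a b _ _ ha' hb'
  have hab' : ¬ poleB 𝒞 (a * b) ≤ poleB 𝒞 a - 1 + (poleB 𝒞 b - 1) + 1 := fun h =>
    hab ((bar_mem_iff_pole 𝒞 _ _).mpr h)
  omega

theorem bar_not_isField (𝒞 : MWDatum R) : ¬ IsField (QQbar ⊗[ℚ] R) := by
  intro hF
  have ht0 : tBar 𝒞 ≠ 0 := fun h => bar_t_not_mem 𝒞 (h ▸ Submodule.zero_mem _)
  obtain ⟨s, hs⟩ := hF.mul_inv_cancel ht0
  have := 𝒞.bar_dedekind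
  have hs0 : s ≠ 0 := fun h => by
    rw [h, mul_zero] at hs
    exact zero_ne_one hs
  have h1 := bar_pole_mul 𝒞 _ _ ht0 hs0
  rw [hs] at h1
  have h2 : poleB 𝒞 (1 : QQbar ⊗[ℚ] R) = 0 := by
    have : (1 : QQbar ⊗[ℚ] R) ∈ WBar 𝒞 0 := by
      have := bar_const_mem 𝒞 1
      rwa [map_one] at this
    exact Nat.le_zero.mp ((bar_mem_iff_pole 𝒞 _ _).mp this)
  have h3 : ¬ poleB 𝒞 (tBar 𝒞) ≤ 𝒞.e - 1 := fun h =>
    bar_t_not_mem 𝒞 ((bar_mem_iff_pole 𝒞 _ _).mpr h)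
  have := 𝒞.e_pos
  omega

theorem bar_null (𝒞 : MWDatum R) (𝔪 : Ideal (QQbar ⊗[ℚ] R)) (h𝔪 : 𝔪.IsMaximal)
    (a : QQbar ⊗[ℚ] R) : ∃ c : QQbar, a - algebraMap QQbar (QQbar ⊗[ℚ] R) c ∈ 𝔪 := by
  have := bar_finiteType 𝒞
  let : Field ((QQbar ⊗[ℚ] R) ⧸ 𝔪) := Ideal.Quotient.field 𝔪
  have : Algebra.FiniteType QQbar ((QQbar ⊗[ℚ] R) ⧸ 𝔪) :=
    Algebra.FiniteType.of_surjective (Ideal.Quotient.mkₐ QQbar 𝔪)
      (Ideal.Quotient.mkₐ_surjective QQbar 𝔪)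
  have : Module.Finite QQbar ((QQbar ⊗[ℚ] R) ⧸ 𝔪) :=
    finite_of_finite_type_of_isJacobsonRing QQbar ((QQbar ⊗[ℚ] R) ⧸ 𝔪)
  have : Algebra.IsIntegral QQbar ((QQbar ⊗[ℚ] R) ⧸ 𝔪) := Algebra.IsIntegral.of_finite _ _
  have hbij := IsAlgClosed.algebraMap_bijective_of_isIntegral (k := QQbar)
    (K := (QQbar ⊗[ℚ] R) ⧸ 𝔪)
  obtain ⟨c, hc⟩ := hbij.2 (Ideal.Quotient.mk 𝔪 a)
  refine ⟨c, ?_⟩
  rw [← Ideal.Quotient.eq_zero_iff_mem, map_sub, ← hc]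
  exact sub_eq_zero.mpr rfl

/-- **[LPF-G-BAR]** the basic facts on the pole filtration of `ℚ̄ ⊗ R`. -/
theorem barFacts (𝒞 : MWDatum R) : BarFacts 𝒞 where
  mono := bar_mono 𝒞
  exhaust := bar_exhaust 𝒞
  mul_mem := bar_mul_mem 𝒞
  const_mem := bar_const_mem 𝒞
  eq_const := bar_eq_const 𝒞
  step := bar_step 𝒞
  gap := bar_gap 𝒞
  finite := bar_finite 𝒞
  finrank_eq := bar_finrank_eq 𝒞
  span := bar_span 𝒞
  t_mem := bar_t_mem 𝒞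
  t_not_mem := bar_t_not_mem 𝒞
  pole_mul := bar_pole_mul 𝒞
  mem_iff_pole := bar_mem_iff_pole 𝒞
  finiteType := bar_finiteType 𝒞
  not_isField := bar_not_isField 𝒞
  null := bar_null 𝒞

end Fermat.Agent.H35.MWBar

end
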