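import Fermat.Agent.H92.MW.CoreInterfaces

set_option autoImplicit false

noncomputable section

namespace Fermat.Agent.H35.MWGG

open Polynomial Height Fermat.Agent.H92.MW

/-- every nonzero rational polynomial is a nonzero constant times a primitive integer polynomial -/
theorem exists_primitive (f : ℚ[X]) (hf : f ≠ 0) :
    ∃ (c : ℚ) (F : ℤ[X]), c ≠ 0 ∧ F.IsPrimitive ∧ f = C c * F.map (Int.castRingHom ℚ) := by
  obtain ⟨b, hb, hspec⟩ := IsLocalization.integerNormalization_spec (nonZeroDivisors ℤ) f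
  set F₀ := IsLocalization.integerNormalization (nonZeroDivisors ℤ) f with hF₀
  have hb0 : (b : ℤ) ≠ 0 := nonZeroDivisors.ne_zero hb
  have hF₀ne : F₀ ≠ 0 := by
    intro h
    rw [h] at hspec
    simp only [Polynomial.map_zero] at hspec
    have : b • f ≠ 0 := by
      rw [Ne, smul_eq_zero]
      rintro (h | h)
      · exact hb0 h
      · exact hf h
    exact this hspec.symm
  have hcont : F₀.content ≠ 0 := by
    rwa [Ne, content_eq_zero_iff]
  refine ⟨(F₀.content : ℚ) / (b : ℚ), F₀.primPart, ?_, isPrimitive_primPart F₀, ?_⟩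
  · exact div_ne_zero (by exact_mod_cast hcont) (by exact_mod_cast hb0)
  · have hbq : (b : ℚ) ≠ 0 := by exact_mod_cast hb0
    have h1 : (C (b : ℚ)) * f = (C (F₀.content : ℚ)) * F₀.primPart.map (Int.castRingHom ℚ) := by
      have h2 : F₀.map (Int.castRingHom ℚ)
          = (C (F₀.content : ℚ)) * F₀.primPart.map (Int.castRingHom ℚ) := by
        conv_lhs => rw [F₀.eq_C_content_mul_primPart]
        simp
      rw [← h2]
      have : (algebraMap ℤ ℚ) = Int.castRingHom ℚ := rfl
      rw [this] at hspec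
      rw [hspec]
      ext i
      simp
    have : f = C ((b : ℚ))⁻¹ * (C (b : ℚ) * f) := by
      rw [← mul_assoc, ← C_mul, inv_mul_cancel₀ hbq, C_1, one_mul]
    rw [this, h1, ← mul_assoc, ← C_mul]
    congr 2
    field_simp

theorem polyHeight_eq_of_natDegree (f : ℚ[X]) (n : ℕ) (hn : f.natDegree = n) :
    polyHeight f = logHeight (fun i : Fin (n + 1) => f.coeff i) := by
  subst hn; rfl

/-- the gcd of the coefficient vector of a primitive integer polynomial is `1` -/
theorem gcd_coeff_eq_one (F : ℤ[X]) (hF : F.IsPrimitive) :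
    Finset.univ.gcd (fun i : Fin (F.natDegree + 1) => F.coeff i) = 1 := by
  set g := Finset.univ.gcd (fun i : Fin (F.natDegree + 1) => F.coeff i) with hg
  have hdvd : C g ∣ F := by
    rw [Polynomial.C_dvd_iff_dvd_coeff]
    intro k
    by_cases hk : k < F.natDegree + 1
    · exact Finset.gcd_dvd (f := fun i : Fin (F.natDegree + 1) => F.coeff i)
        (Finset.mem_univ (⟨k, hk⟩ : Fin (F.natDegree + 1)))
    · rw [coeff_eq_zero_of_natDegree_lt (by omega)]
      exact dvd_zero _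
  have hu : IsUnit g := hF g hdvd
  have hn : normalize g = g := Finset.normalize_gcd
  rw [← hn]
  exact normalize_eq_one.mpr hu

/-- sup of the absolute values of the coefficients = sup norm of the complexification -/
theorem iSup_abs_coeff (F : ℤ[X]) :
    (((⨆ i : Fin (F.natDegree + 1), |F.coeff i| : ℤ)) : ℝ)
      = (F.map (Int.castRingHom ℂ)).supNorm := by
  have hnorm : ∀ k, ‖(F.map (Int.castRingHom ℂ)).coeff k‖ = ((|F.coeff k| : ℤ) : ℝ) := by
    intro k
    simp
  apply le_antisymm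
  · obtain ⟨i, hi⟩ := exists_eq_ciSup_of_finite (f := fun i : Fin (F.natDegree + 1) => |F.coeff i|)
    rw [← hi, ← hnorm]
    exact le_supNorm _ _
  · obtain ⟨k, hk⟩ := exists_eq_supNorm (F.map (Int.castRingHom ℂ))
    rw [hk, hnorm]
    by_cases hk' : k < F.natDegree + 1
    · exact_mod_cast Finite.le_ciSup_of_le (f := fun i : Fin (F.natDegree + 1) => |F.coeff i|)
        (⟨k, hk'⟩ : Fin (F.natDegree + 1)) le_rfl
    · rw [coeff_eq_zero_of_natDegree_lt (by omega)]
      simp only [abs_zero, Int.cast_zero]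
      exact_mod_cast Finite.le_ciSup_of_le (f := fun i : Fin (F.natDegree + 1) => |F.coeff i|)
        (0 : Fin (F.natDegree + 1)) (abs_nonneg _)

/-- the height of a rational polynomial via its primitive integer representative -/
theorem polyHeight_of_primitive (f : ℚ[X]) (c : ℚ) (F : ℤ[X]) (hc : c ≠ 0) (hF : F.IsPrimitive)
    (h : f = C c * F.map (Int.castRingHom ℚ)) :
    polyHeight f = Real.log (F.map (Int.castRingHom ℂ)).supNorm := by
  have hdeg : f.natDegree = F.natDegree := by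
    rw [h, natDegree_C_mul hc, natDegree_map_eq_of_injective]
    exact Int.cast_injective
  rw [polyHeight_eq_of_natDegree f _ hdeg]
  have hvec : (fun i : Fin (F.natDegree + 1) => f.coeff i)
      = c • (((↑) : ℤ → ℚ) ∘ (fun i : Fin (F.natDegree + 1) => F.coeff i)) := by
    funext i
    simp [h]
  rw [hvec, logHeight_smul_eq_logHeight _ hc,
    Rat.logHeight_eq_max_abs_of_gcd_eq_one (gcd_coeff_eq_one F hF), iSup_abs_coeff]

theorem supNorm_le_two_pow_mul_mahlerMeasure (P : ℂ[X]) (n : ℕ) (h : P.natDegree ≤ n) :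
    P.supNorm ≤ 2 ^ n * P.mahlerMeasure := by
  refine (supNorm_le_choose_natDegree_div_two_mul_mahlerMeasure P).trans ?_
  have h1 : ((P.natDegree.choose (P.natDegree / 2) : ℕ) : ℝ) ≤ 2 ^ n := by
    have h2 : P.natDegree.choose (P.natDegree / 2) ≤ 2 ^ n :=
      (Nat.choose_le_two_pow _ _).trans (Nat.pow_le_pow_right (by norm_num) h)
    exact_mod_cast h2
  exact mul_le_mul_of_nonneg_right h1 P.mahlerMeasure_nonneg

theorem mahlerMeasure_le_mul_supNorm (P : ℂ[X]) (n : ℕ) (h : P.natDegree ≤ n) :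
    P.mahlerMeasure ≤ (n + 1) * P.supNorm := by
  refine (mahlerMeasure_le_sqrt_natDegree_add_one_mul_supNorm P).trans ?_
  have h0 : (1 : ℝ) ≤ (P.natDegree : ℝ) + 1 := by
    have : (0 : ℝ) ≤ (P.natDegree : ℝ) := Nat.cast_nonneg _
    linarith
  have h1 : √((P.natDegree : ℝ) + 1) ≤ (n : ℝ) + 1 := by
    have h2 : √((P.natDegree : ℝ) + 1) ≤ (P.natDegree : ℝ) + 1 := by
      rw [Real.sqrt_le_left (by linarith)]
      nlinarith
    have h3 : (P.natDegree : ℝ) ≤ n := by exact_mod_cast h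
    linarith
  exact mul_le_mul_of_nonneg_right h1 P.supNorm_nonneg

/-- the constant of the Gelfond inequality in degree `≤ d` -/
def gelfondConst (d : ℕ) : ℝ := 4 ^ d * (2 * d + 1) ^ 2

theorem one_le_gelfondConst (d : ℕ) : 1 ≤ gelfondConst d := by
  unfold gelfondConst
  have h1 : (1 : ℝ) ≤ 4 ^ d := one_le_pow₀ (by norm_num)
  have h2 : (1 : ℝ) ≤ (2 * (d : ℝ) + 1) ^ 2 := by
    have : (0 : ℝ) ≤ (d : ℝ) := Nat.cast_nonneg _
    nlinarith
  nlinarith

theorem supNorm_mul_le (P Q : ℂ[X]) (d : ℕ) (hP : P.natDegree ≤ d) (hQ : Q.natDegree ≤ d) :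
    (P * Q).supNorm ≤ gelfondConst d * (P.supNorm * Q.supNorm) := by
  have hPQ : (P * Q).natDegree ≤ 2 * d := natDegree_mul_le.trans (by omega)
  have h1 := supNorm_le_two_pow_mul_mahlerMeasure (P * Q) (2 * d) hPQ
  rw [mahlerMeasure_mul] at h1
  have h2 := mahlerMeasure_le_mul_supNorm P d hP
  have h3 := mahlerMeasure_le_mul_supNorm Q d hQ
  have h4 : P.mahlerMeasure * Q.mahlerMeasure
      ≤ ((d + 1) * P.supNorm) * ((d + 1) * Q.supNorm) :=
    mul_le_mul h2 h3 Q.mahlerMeasure_nonneg (by have := P.supNorm_nonneg; positivity)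
  have h5 : (2 : ℝ) ^ (2 * d) = 4 ^ d := by
    rw [pow_mul]; norm_num
  rw [h5] at h1
  have hd : (0 : ℝ) ≤ (d : ℝ) := Nat.cast_nonneg _
  have hS : 0 ≤ P.supNorm * Q.supNorm := mul_nonneg P.supNorm_nonneg Q.supNorm_nonneg
  have h4d : (0 : ℝ) ≤ 4 ^ d := by positivity
  calc (P * Q).supNorm ≤ 4 ^ d * (P.mahlerMeasure * Q.mahlerMeasure) := h1
    _ ≤ 4 ^ d * (((d + 1) * P.supNorm) * ((d + 1) * Q.supNorm)) :=
        mul_le_mul_of_nonneg_left h4 h4d
    _ = 4 ^ d * ((d + 1) ^ 2 * (P.supNorm * Q.supNorm)) := by ring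
    _ ≤ 4 ^ d * ((2 * d + 1) ^ 2 * (P.supNorm * Q.supNorm)) := by
        apply mul_le_mul_of_nonneg_left _ h4d
        apply mul_le_mul_of_nonneg_right _ hS
        nlinarith
    _ = gelfondConst d * (P.supNorm * Q.supNorm) := by unfold gelfondConst; ring

theorem supNorm_mul_ge (P Q : ℂ[X]) (d : ℕ) (hP : P.natDegree ≤ d) (hQ : Q.natDegree ≤ d) :
    P.supNorm * Q.supNorm ≤ gelfondConst d * (P * Q).supNorm := by
  have hPQ : (P * Q).natDegree ≤ 2 * d := natDegree_mul_le.trans (by omega)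
  have h1 := supNorm_le_two_pow_mul_mahlerMeasure P d hP
  have h2 := supNorm_le_two_pow_mul_mahlerMeasure Q d hQ
  have h3 := mahlerMeasure_le_mul_supNorm (P * Q) (2 * d) hPQ
  rw [mahlerMeasure_mul] at h3
  have hd : (0 : ℝ) ≤ (d : ℝ) := Nat.cast_nonneg _
  have h2d : (0 : ℝ) ≤ 2 ^ d := by positivity
  have h4 : P.supNorm * Q.supNorm ≤ (2 ^ d * P.mahlerMeasure) * (2 ^ d * Q.mahlerMeasure) :=
    mul_le_mul h1 h2 Q.supNorm_nonneg (mul_nonneg h2d P.mahlerMeasure_nonneg)
  have h5 : (2 : ℝ) ^ d * 2 ^ d = 4 ^ d := by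
    rw [← mul_pow]; norm_num
  have h4d : (0 : ℝ) ≤ 4 ^ d := by positivity
  have hS : 0 ≤ (P * Q).supNorm := (P * Q).supNorm_nonneg
  calc P.supNorm * Q.supNorm ≤ (2 ^ d * P.mahlerMeasure) * (2 ^ d * Q.mahlerMeasure) := h4
    _ = 4 ^ d * (P.mahlerMeasure * Q.mahlerMeasure) := by rw [← h5]; ring
    _ ≤ 4 ^ d * (((2 * d : ℕ) + 1) * (P * Q).supNorm) := mul_le_mul_of_nonneg_left h3 h4d
    _ ≤ 4 ^ d * ((2 * d + 1) ^ 2 * (P * Q).supNorm) := by
        apply mul_le_mul_of_nonneg_left _ h4d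
        apply mul_le_mul_of_nonneg_right _ hS
        push_cast
        nlinarith
    _ = gelfondConst d * (P * Q).supNorm := by unfold gelfondConst; ring

theorem abs_log_sub_log_le {a b K : ℝ} (ha : 0 < a) (hb : 0 < b) (hK : 1 ≤ K)
    (h1 : a ≤ K * b) (h2 : b ≤ K * a) : |Real.log a - Real.log b| ≤ Real.log K := by
  have hK0 : 0 < K := lt_of_lt_of_le one_pos hK
  rw [abs_le]
  constructor
  · have := Real.log_le_log hb h2
    rw [Real.log_mul hK0.ne' ha.ne'] at this
    linarith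
  · have := Real.log_le_log ha h1
    rw [Real.log_mul hK0.ne' hb.ne'] at this
    linarith

theorem abs_log_supNorm_mul (P Q : ℂ[X]) (d : ℕ) (hP0 : P ≠ 0) (hQ0 : Q ≠ 0)
    (hP : P.natDegree ≤ d) (hQ : Q.natDegree ≤ d) :
    |Real.log (P * Q).supNorm - Real.log P.supNorm - Real.log Q.supNorm|
      ≤ Real.log (gelfondConst d) := by
  have hPp : 0 < P.supNorm := lt_of_le_of_ne P.supNorm_nonneg
    (fun h => hP0 ((supNorm_eq_zero_iff P).mp h.symm))
  have hQp : 0 < Q.supNorm := lt_of_le_of_ne Q.supNorm_nonneg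
    (fun h => hQ0 ((supNorm_eq_zero_iff Q).mp h.symm))
  have hPQp : 0 < (P * Q).supNorm := lt_of_le_of_ne (P * Q).supNorm_nonneg
    (fun h => mul_ne_zero hP0 hQ0 ((supNorm_eq_zero_iff (P * Q)).mp h.symm))
  have := abs_log_sub_log_le hPQp (mul_pos hPp hQp) (one_le_gelfondConst d)
    (supNorm_mul_le P Q d hP hQ) (supNorm_mul_ge P Q d hP hQ)
  rw [Real.log_mul hPp.ne' hQp.ne'] at this
  rwa [sub_sub]

/-- **Gauss-Gelfond** with an explicit constant: for nonzero rational polynomials of degree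
`≤ d`, `|h(f g) - h(f) - h(g)| ≤ log (4 ^ d * (2 d + 1) ^ 2)`. -/
theorem abs_polyHeight_mul (d : ℕ) (f g : ℚ[X]) (hf : f ≠ 0) (hg : g ≠ 0)
    (hfd : f.natDegree ≤ d) (hgd : g.natDegree ≤ d) :
    |polyHeight (f * g) - polyHeight f - polyHeight g| ≤ Real.log (gelfondConst d) := by
  obtain ⟨c, F, hc, hF, hfF⟩ := exists_primitive f hf
  obtain ⟨c', G, hc', hG, hgG⟩ := exists_primitive g hg
  have hinj : Function.Injective (Int.castRingHom ℚ) := Int.cast_injective
  have hinjC : Function.Injective (Int.castRingHom ℂ) := Int.cast_injective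
  have hFd : F.natDegree ≤ d := by
    have : f.natDegree = F.natDegree := by
      rw [hfF, natDegree_C_mul hc, natDegree_map_eq_of_injective hinj]
    omega
  have hGd : G.natDegree ≤ d := by
    have : g.natDegree = G.natDegree := by
      rw [hgG, natDegree_C_mul hc', natDegree_map_eq_of_injective hinj]
    omega
  have hF0 : F ≠ 0 := hF.ne_zero
  have hG0 : G ≠ 0 := hG.ne_zero
  have hfg : f * g = C (c * c') * (F * G).map (Int.castRingHom ℚ) := by
    rw [hfF, hgG, Polynomial.map_mul, C_mul]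
    ring
  rw [polyHeight_of_primitive f c F hc hF hfF, polyHeight_of_primitive g c' G hc' hG hgG,
    polyHeight_of_primitive (f * g) (c * c') (F * G) (mul_ne_zero hc hc') (hF.mul hG) hfg,
    Polynomial.map_mul]
  refine abs_log_supNorm_mul _ _ d ?_ ?_ ?_ ?_
  · exact (Polynomial.map_ne_zero_iff hinjC).mpr hF0
  · exact (Polynomial.map_ne_zero_iff hinjC).mpr hG0
  · rwa [natDegree_map_eq_of_injective hinjC]
  · rwa [natDegree_map_eq_of_injective hinjC]

/-- **Gauss-Gelfond** (row MW-GG of P-MW): `h(f g) = h(f) + h(g) + O_{deg}(1)`. -/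
theorem gaussGelfond : GaussGelfondStatement := fun d =>
  ⟨Real.log (gelfondConst d), fun f g hf hg hfd hgd => abs_polyHeight_mul d f g hf hg hfd hgd⟩

end Fermat.Agent.H35.MWGG

end
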